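/-
S19 Part A blueprint (pure algebra; imports Mathlib + two Prelude definition files only).
Every `sorry` below is a task; prove it in the file named in the comment (same statement, same name),
never import this file from a landed file.
-/
import Fermat.Agent.S19.Defs

set_option autoImplicit false

namespace Fermat.Agent.S19

open scoped TensorProduct

/-! ### A0 : the base ring (file `S19/BaseRing.lean`) -/

/-- A0a -/
theorem Rl_isPrincipalIdealRing (p : ℕ) [Fact p.Prime] : IsPrincipalIdealRing (Rl p) := sorry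

/-- A0b : `ℤ_(p)` is integrally closed in `ℚ`, in the form we use. -/
theorem mem_Rl_of_isIntegral (p : ℕ) [Fact p.Prime] (x : ℚ)
    (hx : IsIntegral (Rl p) (algebraMap ℚ Qb x)) : x ∈ Rl p := sorry

/-- A0c : an element of `ℚ̄` lying in every valuation ring over `p` is integral over `ℤ_(p)`. -/
theorem isIntegral_of_forall_mem (p : ℕ) [Fact p.Prime] (x : Qb)
    (hx : ∀ A : ValuationSubring Qb, A.LiesOverPrime p → x ∈ A) : IsIntegral (Rl p) x := sorry

/-- A0d : conversely. -/
theorem mem_of_isIntegral (p : ℕ) [Fact p.Prime] (x : Qb) (hx : IsIntegral (Rl p) x)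
    (A : ValuationSubring Qb) (hA : A.LiesOverPrime p) : x ∈ A := sorry

/-- A0f : there is a valuation ring of `ℚ̄` over `p`. -/
theorem exists_liesOverPrime (p : ℕ) [Fact p.Prime] :
    ∃ A : ValuationSubring Qb, A.LiesOverPrime p := sorry

/-- A0e : fixed field. -/
theorem exists_rat_of_fixed (x : Qb) (hx : ∀ σ : Gal, σ x = x) : ∃ q : ℚ, algebraMap ℚ Qb q = x :=
  sorry

/-! ### A1 : Galois descent of linear independence (file `S19/Descent.lean`) -/

/-- A1a : equivariant functions which are linearly independent over `ℚ` are linearly independent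
over `ℚ̄` (minimal relation argument). -/
theorem linearIndependent_of_equivariant {W ι : Type} [MulAction Gal W] (s : ι → W → Qb)
    (heq : ∀ i (σ : Gal) (w : W), s i (σ • w) = σ (s i w))
    (hs : LinearIndependent ℚ s) : LinearIndependent Qb s := sorry

/-- A1b : same, starting from independence over `ℤ_(p)`. -/
theorem linearIndependent_of_equivariant' (p : ℕ) [Fact p.Prime] {W ι : Type} [MulAction Gal W]
    (s : ι → W → Qb) (heq : ∀ i (σ : Gal) (w : W), s i (σ • w) = σ (s i w))
    (hs : LinearIndependent (Rl p) s) : LinearIndependent Qb s := sorry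

/-- A1c : the module of all equivariant integral functions on a finite `G`-set is finitely
generated over `ℤ_(p)` (trace form `(f, g) ↦ ∑ w, f w * g w ∈ ℚ`, dual lattice). -/
theorem fg_intEquiv (p : ℕ) [Fact p.Prime] {W : Type} [Finite W] [MulAction Gal W] :
    ∃ (r : ℕ) (s : Fin r → W → Qb), (∀ i, IsIntEquiv p (s i)) ∧ LinearIndependent (Rl p) s ∧
      ∀ f : W → Qb, IsIntEquiv p f → ∃ c : Fin r → Rl p, f = fun w => ∑ i, (c i : ℚ) • s i w := sorry

/-! ### A2 : calculus of `InSpan` (file `S19/InSpan.lean`) -/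

section InSpan
variable {p : ℕ} [Fact p.Prime] {A : ValuationSubring Qb} {W : Type} [MulAction Gal W]

theorem IsIntEquiv.add {f g : W → Qb} (hf : IsIntEquiv p f) (hg : IsIntEquiv p g) :
    IsIntEquiv p (f + g) := sorry
theorem IsIntEquiv.mul {f g : W → Qb} (hf : IsIntEquiv p f) (hg : IsIntEquiv p g) :
    IsIntEquiv p (f * g) := sorry
theorem IsIntEquiv.const (c : Rl p) : IsIntEquiv p (fun _ : W => algebraMap ℚ Qb (c : ℚ)) := sorry
theorem InSpan.of_intEquiv {f : W → Qb} (hf : IsIntEquiv p f) : InSpan p A f := sorry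
theorem InSpan.const {c : Qb} (hc : c ∈ A) : InSpan p A (fun _ : W => c) := sorry
theorem InSpan.add {f g : W → Qb} (hf : InSpan p A f) (hg : InSpan p A g) : InSpan p A (f + g) :=
  sorry
theorem InSpan.mul {f g : W → Qb} (hf : InSpan p A f) (hg : InSpan p A g) : InSpan p A (f * g) :=
  sorry
theorem InSpan.prod {ι : Type} (t : Finset ι) (f : ι → W → Qb) (hf : ∀ i ∈ t, InSpan p A (f i)) :
    InSpan p A (∏ i ∈ t, f i) := sorry
theorem InSpan.pow {f : W → Qb} (hf : InSpan p A f) (n : ℕ) : InSpan p A (f ^ n) := sorry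
/-- values lie in `A` -/
theorem InSpan.mem (hA : A.LiesOverPrime p) {f : W → Qb} (hf : InSpan p A f) (w : W) : f w ∈ A :=
  sorry
/-- a unit-valued element is invertible in the span: `η⁻¹ ∈ A[η]` by `∏ w, (T - η w)`. -/
theorem InSpan.inv [Finite W] (hA : A.LiesOverPrime p) {f : W → Qb} (hf : InSpan p A f) (hu : ∀ w, (f w)⁻¹ ∈ A)
    (h0 : ∀ w, f w ≠ 0) : InSpan p A (fun w => (f w)⁻¹) := sorry
theorem InSpan.zpow [Finite W] (hA : A.LiesOverPrime p) {f : W → Qb} (hf : InSpan p A f) (hu : ∀ w, (f w)⁻¹ ∈ A)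
    (h0 : ∀ w, f w ≠ 0) (n : ℤ) : InSpan p A (fun w => (f w) ^ n) := sorry
end InSpan

/-! ### A3 : lattices of functions and tensor products (file `S19/Lattice.lean`) -/

/-- A3a -/
theorem mulMap_tmul {R K X Y : Type} [CommRing R] [Field K] [Algebra R K]
    (H : Subalgebra R (X → K)) (H' : Subalgebra R (Y → K)) (a : H) (b : H') (q : X × Y) :
    mulMap H H' (a ⊗ₜ b) q = (a : X → K) q.1 * (b : Y → K) q.2 := sorry

/-- A3b -/
theorem mulMap_injective {R K X Y : Type} [CommRing R] [Field K] [Algebra R K]
    {H : Subalgebra R (X → K)} {H' : Subalgebra R (Y → K)}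
    (hH : IsFullLattice H) (hH' : IsFullLattice H') : Function.Injective (mulMap H H') := sorry

/-- A3c -/
theorem isFullLattice_range_mulMap {R K X Y : Type} [CommRing R] [Field K] [Algebra R K]
    {H : Subalgebra R (X → K)} {H' : Subalgebra R (Y → K)}
    (hH : IsFullLattice H) (hH' : IsFullLattice H') : IsFullLattice (mulMap H H').range := sorry

/-- A3d -/
theorem range_mulMap_toSubmodule {R K X Y : Type} [CommRing R] [Field K] [Algebra R K]
    (H : Subalgebra R (X → K)) (H' : Subalgebra R (Y → K)) :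
    Subalgebra.toSubmodule (mulMap H H').range = Submodule.span R (prodFun H H') := sorry

/-- A3e : a Hopf order is a full lattice (free since `ℤ_(p)` is a PID; independent by A1b; spanning
because a point-separating subalgebra of functions on a finite set spans everything). -/
theorem IsHopfOrder.isFullLattice {p : ℕ} [Fact p.Prime] {M : Type} [AddCommGroup M] [Finite M]
    [DistribMulAction Gal M] {H : Subalgebra (Rl p) (M → Qb)} (hH : IsHopfOrder p H) :
    IsFullLattice H := sorry

/-! ### A4 : abstract Hopf algebra from a lattice (file `S19/HopfOfLattice.lean`) -/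

/-- A4 : the main construction.  `comul := (mulMap)⁻¹ ∘ (h ↦ h ∘ +)`; all axioms are checked after
the injections `mulMap` into function spaces. -/
theorem exists_hopfAlgebra_of_lattice {R K Γ : Type} [CommRing R] [Field K] [Algebra R K]
    [AddCommGroup Γ] [Finite Γ] (hinj : Function.Injective (algebraMap R K))
    (H : Subalgebra R (Γ → K)) (hH : IsFullLattice H)
    (hcomul : ∀ h ∈ H, (fun q : Γ × Γ => h (q.1 + q.2)) ∈ Submodule.span R (prodFun H H))
    (hneg : ∀ h ∈ H, (fun x => h (-x)) ∈ H)
    (hzero : ∀ h ∈ H, h 0 ∈ (algebraMap R K).range) :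
    ∃ (H' : Type) (_ : CommRing H') (_ : HopfAlgebra R H'),
      Module.Finite R H' ∧ Module.Free R H' ∧ Coalgebra.IsCocomm R H' ∧
      ∃ (φ : H' →ₐ[R] (Γ → K)) (e : WithConv (H' →ₐ[R] K) ≃ Γ),
        Function.Injective φ ∧ φ.range = H ∧
        (∀ f g : WithConv (H' →ₐ[R] K), e (f * g) = e f + e g) ∧
        ∀ (f : WithConv (H' →ₐ[R] K)) (h : H'), f h = φ h (e f) := sorry

/-! ### A5 : Hopf orders give flat modules (file `S19/FlatOfOrder.lean`) -/

/-- A5a : multiples: `x ↦ h (k • x)` stays in `H`. -/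
theorem IsHopfOrder.nsmul_mem {p : ℕ} [Fact p.Prime] {M : Type} [AddCommGroup M] [Finite M]
    [DistribMulAction Gal M] {H : Subalgebra (Rl p) (M → Qb)} (hH : IsHopfOrder p H)
    (k : ℕ) {h : M → Qb} (hh : h ∈ H) : (fun x => h (k • x)) ∈ H := sorry

/-- A5b -/
theorem IsHopfOrder.neg_mem {p : ℕ} [Fact p.Prime] {M : Type} [AddCommGroup M] [Finite M]
    [DistribMulAction Gal M] {H : Subalgebra (Rl p) (M → Qb)} (hH : IsHopfOrder p H)
    {h : M → Qb} (hh : h ∈ H) : (fun x => h (-x)) ∈ H := sorry

/-- A5c -/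
theorem IsHopfOrder.zero_mem {p : ℕ} [Fact p.Prime] {M : Type} [AddCommGroup M] [Finite M]
    [DistribMulAction Gal M] {H : Subalgebra (Rl p) (M → Qb)} (hH : IsHopfOrder p H)
    {h : M → Qb} (hh : h ∈ H) : h 0 ∈ (algebraMap (Rl p) Qb).range := sorry

/-- A5 -/
theorem HasHopfOrder.isFlatModule {p : ℕ} [Fact p.Prime] {M : Type} [AddCommGroup M] [Finite M]
    [DistribMulAction Gal M] (h : HasHopfOrder p M) : IsFlatModule p M := sorry

/-! ### A6 : Theorem A (file `S19/TheoremA.lean`) -/

/-- A6 : THEOREM A.  An injective, multiplicative, equivariant family of functions on a finite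
`G`-set `W`, lying in the `A`-span of the equivariant integral functions for every `A` over `p`,
produces a Hopf order.  (`s_i` := the basis of A1c, `ι v = ∑ x_i(v) s_i`, `H := ℤ_(p)[x_i]`.) -/
theorem hasHopfOrder_of_pairing (p : ℕ) [Fact p.Prime] {V W : Type} [AddCommGroup V] [Finite V]
    [DistribMulAction Gal V] [Finite W] [MulAction Gal W] (ι : V → W → Qb)
    (hmul : ∀ v v' w, ι (v + v') w = ι v w * ι v' w)
    (heq : ∀ (σ : Gal) v w, ι (σ • v) (σ • w) = σ (ι v w))
    (hinj : Function.Injective ι)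
    (hint : ∀ A : ValuationSubring Qb, A.LiesOverPrime p → ∀ v, InSpan p A (ι v)) :
    HasHopfOrder p V := sorry

/-! ### A7 : closure properties (file `S19/Closure.lean`) -/

/-- A7a : submodules (restrict functions). -/
theorem HasHopfOrder.of_injective {p : ℕ} [Fact p.Prime] {M M' : Type} [AddCommGroup M]
    [AddCommGroup M'] [Finite M] [DistribMulAction Gal M] [DistribMulAction Gal M']
    (φ : M' →+ M) (hφ : Function.Injective φ) (heq : ∀ (σ : Gal) x, φ (σ • x) = σ • φ x)
    (h : HasHopfOrder p M) : HasHopfOrder p M' := sorry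

/-- A7b : quotients (`H'' := {h | h ∘ φ ∈ H}`; saturated sublattice of a free module over a PID is
a direct summand, then compare coefficients using independence over `ℚ̄`). -/
theorem HasHopfOrder.of_surjective {p : ℕ} [Fact p.Prime] {M M' : Type} [AddCommGroup M]
    [AddCommGroup M'] [Finite M] [DistribMulAction Gal M] [DistribMulAction Gal M']
    (φ : M →+ M') (hφ : Function.Surjective φ) (heq : ∀ (σ : Gal) x, φ (σ • x) = σ • φ x)
    (h : HasHopfOrder p M) : HasHopfOrder p M' := sorry

/-- A7c : products. -/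
theorem HasHopfOrder.prod {p : ℕ} [Fact p.Prime] {M M' : Type} [AddCommGroup M]
    [AddCommGroup M'] [Finite M] [Finite M'] [DistribMulAction Gal M] [DistribMulAction Gal M']
    (h : HasHopfOrder p M) (h' : HasHopfOrder p M') : HasHopfOrder p (M × M') := sorry

/-- A7d : finite powers. -/
theorem HasHopfOrder.pi {p : ℕ} [Fact p.Prime] {M : Type} [AddCommGroup M] [Finite M]
    [DistribMulAction Gal M] (h : HasHopfOrder p M) (r : ℕ) : HasHopfOrder p (Fin r → M) := sorry

end Fermat.Agent.S19
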